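/-
Project SS (statement S34), cell [D] (helper20): FIELDS OF RATIONALITY OF PLACES.

`F₀ ⊆ ℚ((q))` a function field, `F_L := laurentBaseChange L F₀` for `L ⊆ Q̄`.  The group `G_ℚ`
acts on `F_Q̄` (on the coefficients, `arithmeticGalois F₀`) and on its places.

* `ssd_exists_fix`     : every element of `F_Q̄` is fixed by the `τ` fixing a finite set of constants;
* `ssd_exists_sep`     : two distinct places are separated by a function;
* `ssd_exists_stab`    : every place `P` of `F_Q̄` is fixed by the `τ` fixing a finite set of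
                         constants (its stabiliser is open);
* `ssd_value_fixed`    : if `τ` fixes `P` and `y`, it fixes the value of `y` at `P`;
* `ssd_rational`       : for `g ≠ 0` in `F_Q̄` there is a finite set `s ⊆ Q̄` such that over every
                         `L1 ⊇ s` all zeros and poles of (the model over `L1` of) `g` are
                         `L1`-rational places of `F_{L1} / L1` (`ss_RatPlace`).
Prefix `ssd_`.
-/
import Mathlib
import Fermat.Prelude.Def_ModularCurve_ArithmeticGalois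
import Fermat.Agent.JT3.Descent.FieldOfDef
import Fermat.Agent.JT3.S18Div
import Fermat.Agent.S24.Hurwitz.Places
import Fermat.Agent.SS.CoreSeam

set_option autoImplicit false
set_option linter.unusedSectionVars false

noncomputable section

namespace Fermat.Agent.SS

open ModularCurve AlgebraicCurve Fermat.Agent.JT3 Fermat.Agent.S24 IntermediateField

local notation "Qb" => AlgebraicClosure ℚ

/-! ### generalities on places -/

section Places

variable {K F : Type*} [Field K] [Field F] [Algebra K F]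

/-- the nonunits of a place in terms of `ord`. -/
theorem ssd_mem_nonunits_iff (v : Place K F) {f : F} (hf : f ≠ 0) :
    f ∈ v.toValuationSubring.nonunits ↔ 0 < v.ord f := by
  rw [ValuationSubring.mem_nonunits_iff_or, hw_ord_pos_iff v hf]
  simp [hf]

theorem ssd_mem_nonunits_of_ord_pos (v : Place K F) {f : F} (h : 0 < v.ord f) :
    f ∈ v.toValuationSubring.nonunits := by
  have hf : f ≠ 0 := by
    rintro rfl
    simp at h
  exact (ssd_mem_nonunits_iff v hf).2 h

theorem ssd_ord_pow (v : Place K F) (f : F) (n : ℕ) : v.ord (f ^ n) = n * v.ord f := by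
  have := v.ord_zpow f (n : ℤ)
  rwa [zpow_natCast] at this

/-- two distinct places are separated by a function: given `t` with `ord_P t > 0` there is `y`
with `ord_P y > 0` and `ord_{P'} y ≤ 0`. -/
theorem ssd_exists_sep {P P' : Place K F} (h : P ≠ P') {t : F} (ht : 0 < P.ord t) :
    ∃ y : F, 0 < P.ord y ∧ P'.ord y ≤ 0 := by
  have ht0 : t ≠ 0 := by
    rintro rfl
    simp at ht
  by_cases hle : ∃ a ∈ P.toValuationSubring, a ∉ P'.toValuationSubring
  · obtain ⟨a, ha, ha'⟩ := hle
    have ha0 : a ≠ 0 := by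
      rintro rfl
      exact ha' (zero_mem _)
    have h1 : 0 ≤ P.ord a := (hw_mem_iff_ord_nonneg P ha0).1 ha
    have h2 : P'.ord a < 0 := by
      by_contra hcon
      push Not at hcon
      exact ha' ((hw_mem_iff_ord_nonneg P' ha0).2 hcon)
    set k : ℕ := (P'.ord t).toNat with hk
    refine ⟨a ^ k * t, ?_, ?_⟩
    · rw [P.ord_mul (pow_ne_zero _ ha0) ht0, ssd_ord_pow]
      have : 0 ≤ (k : ℤ) * P.ord a := mul_nonneg (by positivity) h1
      omega
    · rw [P'.ord_mul (pow_ne_zero _ ha0) ht0, ssd_ord_pow]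
      have hk' : P'.ord t ≤ (k : ℤ) := by rw [hk]; exact Int.self_le_toNat _
      have : (k : ℤ) * P'.ord a ≤ -(k : ℤ) := by nlinarith
      omega
  · -- `O_P ≤ O_{P'}`: then `O_{P'} = ⊤`
    exfalso
    push Not at hle
    have hne : ¬ P'.toValuationSubring ≤ P.toValuationSubring := by
      intro h'
      exact h (Place.ext (le_antisymm hle h'))
    obtain ⟨x, hx', hx⟩ : ∃ x ∈ P'.toValuationSubring, x ∉ P.toValuationSubring := by
      by_contra hcon
      push Not at hcon
      exact hne hcon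
    have hx0 : x ≠ 0 := by
      rintro rfl
      exact hx (zero_mem _)
    have hxneg : P.ord x < 0 := by
      by_contra hcon
      push Not at hcon
      exact hx ((hw_mem_iff_ord_nonneg P hx0).2 hcon)
    apply P'.ne_top'
    rw [eq_top_iff]
    intro z _
    rcases eq_or_ne z 0 with rfl | hz
    · exact zero_mem _
    set n : ℕ := (- P.ord z).toNat with hn
    have hzn : z * (x⁻¹) ^ n ∈ P.toValuationSubring := by
      rw [hw_mem_iff_ord_nonneg P (mul_ne_zero hz (pow_ne_zero _ (inv_ne_zero hx0))),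
        P.ord_mul hz (pow_ne_zero _ (inv_ne_zero hx0)), ssd_ord_pow, P.ord_inv]
      have hn' : - P.ord z ≤ (n : ℤ) := by rw [hn]; exact Int.self_le_toNat _
      have : (n : ℤ) ≤ (n : ℤ) * (- P.ord x) := by nlinarith
      omega
    have : z = z * (x⁻¹) ^ n * x ^ n := by
      rw [mul_assoc, ← mul_pow, inv_mul_cancel₀ hx0, one_pow, mul_one]
    rw [this]
    exact mul_mem (hle _ hzn) (pow_mem hx' n)

end Places

/-! ### the Galois action on `F_Q̄` -/

section Galois

variable (F₀ : IntermediateField ℚ (LaurentSeries ℚ))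

/-- an automorphism fixing a set of generators fixes the generated field. -/
theorem ssd_fix_adjoin (τ : Qb ≃ₐ[ℚ] Qb) (s : Set Qb) (h : ∀ x ∈ s, τ x = x) :
    ∀ x ∈ IntermediateField.adjoin ℚ s, τ x = x := by
  intro x hx
  induction hx using IntermediateField.adjoin_induction with
  | mem y hy => exact h y hy
  | algebraMap r => exact τ.commutes r
  | add x y _ _ hx hy => rw [map_add, hx, hy]
  | inv x _ hx => rw [map_inv₀, hx]
  | mul x y _ _ hx hy => rw [map_mul, hx, hy]

/-- `τ` fixing `L1` pointwise fixes the elements of `F_Q̄` defined over `L1`. -/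
theorem ssd_smul_bcHom (L1 : Type) [Field L1] [Algebra ℚ L1] [Algebra L1 Qb]
    [IsScalarTower ℚ L1 Qb] (τ : Qb ≃ₐ[ℚ] Qb)
    (h : ∀ x : L1, τ (algebraMap L1 Qb x) = algebraMap L1 Qb x) (x : laurentBaseChange L1 F₀) :
    arithmeticGalois F₀ τ • dsc_bcHom L1 Qb F₀ x = dsc_bcHom L1 Qb F₀ x := by
  apply Subtype.ext
  rw [coe_arithmeticGalois_smul, dsc_bcHom_coe, dsc_cm, coeffMap_coeffMap]
  apply coeffMap_congr
  ext a
  exact h a

/-- every element of `F_Q̄` is fixed by the automorphisms fixing a finite set of constants. -/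
theorem ssd_exists_fix (y : laurentBaseChange Qb F₀) :
    ∃ s : Finset Qb, ∀ τ : Qb ≃ₐ[ℚ] Qb, (∀ x ∈ s, τ x = x) → arithmeticGalois F₀ τ • y = y := by
  obtain ⟨s, hs⟩ := dsc_bc_exists_fg Qb F₀ y.2
  refine ⟨s, fun τ hτ => ?_⟩
  obtain ⟨y1, hy1, hy⟩ := hs (IntermediateField.adjoin ℚ (↑s : Set Qb))
    (IntermediateField.subset_adjoin ℚ _)
  have hfix := ssd_fix_adjoin τ (↑s : Set Qb) (fun x hx => hτ x (Finset.mem_coe.1 hx))
  have := ssd_smul_bcHom F₀ (IntermediateField.adjoin ℚ (↑s : Set Qb)) τ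
    (fun x => hfix _ x.2) ⟨y1, hy1⟩
  have hyy : dsc_bcHom (IntermediateField.adjoin ℚ (↑s : Set Qb)) Qb F₀ ⟨y1, hy1⟩ = y :=
    Subtype.ext hy
  rwa [hyy] at this

variable {F₀}

/-- if `τ` fixes the place `P` and the function `y`, it fixes the value of `y` at `P`. -/
theorem ssd_value_fixed (P : Place Qb (laurentBaseChange Qb F₀)) (τ : Qb ≃ₐ[ℚ] Qb)
    (hτP : arithmeticGalois F₀ τ • P = P) (y : laurentBaseChange Qb F₀)
    (hy : arithmeticGalois F₀ τ • y = y) (c : Qb)
    (hc : y - algebraMap Qb (laurentBaseChange Qb F₀) c ∈ P.toValuationSubring.nonunits) :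
    τ c = c := by
  set g := arithmeticGalois F₀ τ with hg
  have hgc : g • (y - algebraMap Qb (laurentBaseChange Qb F₀) c) =
      y - algebraMap Qb (laurentBaseChange Qb F₀) (τ c) := by
    rw [smul_sub, hy, SemilinearAut.smul_algebraMap]
    rfl
  by_cases h0 : y - algebraMap Qb (laurentBaseChange Qb F₀) c = 0
  · rw [h0, smul_zero] at hgc
    have h1 : algebraMap Qb (laurentBaseChange Qb F₀) c =
        algebraMap Qb (laurentBaseChange Qb F₀) (τ c) := by
      rw [← sub_eq_zero.1 h0, ← sub_eq_zero.1 hgc.symm]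
    exact ((algebraMap Qb (laurentBaseChange Qb F₀)).injective h1).symm
  · have h1 : 0 < P.ord (y - algebraMap Qb (laurentBaseChange Qb F₀) c) :=
      (ssd_mem_nonunits_iff P h0).1 hc
    have h2 : 0 < P.ord (y - algebraMap Qb (laurentBaseChange Qb F₀) (τ c)) := by
      have := SemilinearAut.ord_smul g P (y - algebraMap Qb (laurentBaseChange Qb F₀) c)
      rw [hτP, hgc] at this
      rw [this]
      exact h1
    by_contra hne
    have hd : τ c - c ≠ 0 := sub_ne_zero.2 hne
    have h3 : P.ord (algebraMap Qb (laurentBaseChange Qb F₀) (τ c - c)) = 0 :=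
      hw_ord_algebraMap P _
    have hd' : algebraMap Qb (laurentBaseChange Qb F₀) (τ c - c) ≠ 0 := by
      rwa [Ne, map_eq_zero]
    have h20 : y - algebraMap Qb (laurentBaseChange Qb F₀) (τ c) ≠ 0 := by
      intro h
      rw [h] at h2
      simp at h2
    have hsum : (y - algebraMap Qb (laurentBaseChange Qb F₀) c) +
        -(y - algebraMap Qb (laurentBaseChange Qb F₀) (τ c)) =
        algebraMap Qb (laurentBaseChange Qb F₀) (τ c - c) := by
      rw [map_sub]; ring
    have h4 := hw_ord_add_ge P h0 (neg_ne_zero.2 h20) (by rw [hsum]; exact hd')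
    rw [hsum, h3, hw_ord_neg] at h4
    have := lt_min h1 h2
    omega

variable (F₀)

/-- **the stabiliser of a place is open**: every place of `F_Q̄` is fixed by the automorphisms
fixing a finite set of constants. -/
theorem ssd_exists_stab (x0 : laurentBaseChange Qb F₀)
    [FiniteDimensional Qb⟮x0⟯ (laurentBaseChange Qb F₀)]
    (P : Place Qb (laurentBaseChange Qb F₀)) :
    ∃ s : Finset Qb, ∀ τ : Qb ≃ₐ[ℚ] Qb, (∀ x ∈ s, τ x = x) → arithmeticGalois F₀ τ • P = P := by
  classical
  obtain ⟨π, hπ⟩ := IsDiscreteValuationRing.exists_irreducible P.toValuationSubring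
  set t : laurentBaseChange Qb F₀ := (π : laurentBaseChange Qb F₀) with ht
  have htP : P.ord t = 1 := P.ord_coe_irreducible hπ
  have hZ : {P' : Place Qb (laurentBaseChange Qb F₀) | P'.ord t ≠ 0}.Finite :=
    jt_finite_ord_ne_zero (K := Qb) x0 t
  obtain ⟨st, hst⟩ := ssd_exists_fix F₀ t
  -- the separating functions
  have hsep : ∀ P' : Place Qb (laurentBaseChange Qb F₀), P' ≠ P →
      ∃ y : laurentBaseChange Qb F₀, 0 < P.ord y ∧ P'.ord y ≤ 0 := fun P' hP' =>
    ssd_exists_sep (Ne.symm hP') (by rw [htP]; norm_num)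
  set ysel : Place Qb (laurentBaseChange Qb F₀) → laurentBaseChange Qb F₀ := fun P' =>
    if h : P' ≠ P then (hsep P' h).choose else 1 with hysel
  have hysel_spec : ∀ P', P' ≠ P → 0 < P.ord (ysel P') ∧ P'.ord (ysel P') ≤ 0 := by
    intro P' hP'
    rw [hysel]
    simp only [dif_pos hP']
    exact (hsep P' hP').choose_spec
  set ssel : Place Qb (laurentBaseChange Qb F₀) → Finset Qb := fun P' =>
    (ssd_exists_fix F₀ (ysel P')).choose with hssel
  have hssel_spec : ∀ P' (τ : Qb ≃ₐ[ℚ] Qb), (∀ x ∈ ssel P', τ x = x) →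
      arithmeticGalois F₀ τ • ysel P' = ysel P' := fun P' =>
    (ssd_exists_fix F₀ (ysel P')).choose_spec
  refine ⟨st ∪ hZ.toFinset.biUnion ssel, fun τ hτ => ?_⟩
  set g := arithmeticGalois F₀ τ with hg
  have hgt : g • t = t := hst τ (fun x hx => hτ x (Finset.mem_union_left _ hx))
  have hgP : (g • P).ord t = 1 := by
    have := SemilinearAut.ord_smul g P t
    rw [hgt] at this
    rw [this, htP]
  by_contra hne
  have hmemZ : g • P ∈ hZ.toFinset := by
    rw [Set.Finite.mem_toFinset, Set.mem_ofPred_eq, hgP]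
    norm_num
  have hy := hysel_spec (g • P) hne
  have hfix : g • ysel (g • P) = ysel (g • P) := by
    apply hssel_spec
    intro x hx
    exact hτ x (Finset.mem_union_right _ (Finset.mem_biUnion.2 ⟨g • P, hmemZ, hx⟩))
  have := SemilinearAut.ord_smul g P (ysel (g • P))
  rw [hfix] at this
  omega

/-- **fields of rationality.** For `gb ≠ 0` in `F_Q̄` there is a finite set `s ⊆ Q̄` such that for
every subfield `L1 ⊇ s` of `Q̄` and every model `g1` of `gb` over `L1`, the zeros and poles of `g1`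
are `L1`-rational places of `F_{L1} / L1`. -/
theorem ssd_rational (x0 : laurentBaseChange Qb F₀)
    [FiniteDimensional Qb⟮x0⟯ (laurentBaseChange Qb F₀)]
    (gb : laurentBaseChange Qb F₀) :
    ∃ s : Finset Qb, ∀ (L1 : Type) [Field L1] [Algebra ℚ L1] [Algebra L1 Qb]
      [IsScalarTower ℚ L1 Qb], (↑s : Set Qb) ⊆ Set.range (algebraMap L1 Qb) →
      ∀ g1 : laurentBaseChange L1 F₀, dsc_bcHom L1 Qb F₀ g1 = gb →
        ∀ v : Place L1 (laurentBaseChange L1 F₀), v.ord g1 ≠ 0 → ss_RatPlace v := by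
  classical
  have hZ : {P : Place Qb (laurentBaseChange Qb F₀) | P.ord gb ≠ 0}.Finite :=
    jt_finite_ord_ne_zero (K := Qb) x0 gb
  set ssel : Place Qb (laurentBaseChange Qb F₀) → Finset Qb := fun P =>
    (ssd_exists_stab F₀ x0 P).choose with hssel
  have hssel_spec : ∀ P (τ : Qb ≃ₐ[ℚ] Qb), (∀ x ∈ ssel P, τ x = x) →
      arithmeticGalois F₀ τ • P = P := fun P => (ssd_exists_stab F₀ x0 P).choose_spec
  refine ⟨hZ.toFinset.biUnion ssel, ?_⟩
  intro L1 _ _ _ _ hL1 g1 hg1 v hv a ha
  have _ : IsAlgClosure ℚ Qb := ⟨inferInstance, AlgebraicClosure.isAlgebraic ℚ⟩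
  have _ : IsGalois ℚ Qb := inferInstance
  have _ : Algebra.IsAlgebraic ℚ Qb := AlgebraicClosure.isAlgebraic ℚ
  have _ : Algebra.IsAlgebraic L1 Qb := Algebra.IsAlgebraic.tower_top (K := ℚ) L1
  obtain ⟨P, hP⟩ := dsc_bc_exists_place L1 Qb F₀ v
  have hPZ : P ∈ hZ.toFinset := by
    rw [Set.Finite.mem_toFinset, Set.mem_ofPred_eq, ← hg1, hP]
    exact hv
  have hstab : ∀ τ : Qb ≃ₐ[ℚ] Qb, (∀ x : L1, τ (algebraMap L1 Qb x) = algebraMap L1 Qb x) →
      arithmeticGalois F₀ τ • P = P := by
    intro τ hτ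
    apply hssel_spec
    intro x hx
    obtain ⟨x1, rfl⟩ := hL1 (Finset.mem_coe.2 (Finset.mem_biUnion.2 ⟨P, hPZ, hx⟩))
    exact hτ x1
  rcases eq_or_ne a 0 with rfl | ha0
  · exact ⟨0, by simp⟩
  have hbca0 : dsc_bcHom L1 Qb F₀ a ≠ 0 := by
    rwa [Ne, map_eq_zero]
  have hbca : (dsc_bcHom L1 Qb F₀ a : laurentBaseChange Qb F₀) ∈ P.toValuationSubring := by
    rw [hw_mem_iff_ord_nonneg P hbca0, hP]
    exact (hw_mem_iff_ord_nonneg v ha0).1 ha
  have _ : Algebra.IsAlgebraic Qb⟮x0⟯ (laurentBaseChange Qb F₀) :=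
    Algebra.IsAlgebraic.of_finite _ _
  obtain ⟨c, hc⟩ := hw_exists_const x0 P hbca
  have hcnon : dsc_bcHom L1 Qb F₀ a - algebraMap Qb (laurentBaseChange Qb F₀) c ∈
      P.toValuationSubring.nonunits := by
    rcases hc with hc | hc
    · rw [hc, sub_self]
      simp
    · exact ssd_mem_nonunits_of_ord_pos P hc
  -- the value is fixed by `Gal(Q̄ / L1)`, hence lies in `L1`
  set M : IntermediateField ℚ Qb := (IsScalarTower.toAlgHom ℚ L1 Qb).fieldRange with hM
  have hcM : c ∈ M := by
    rw [← InfiniteGalois.fixedField_fixingSubgroup M, IntermediateField.mem_fixedField_iff]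
    intro τ hτ
    rw [IntermediateField.mem_fixingSubgroup_iff] at hτ
    have hτ' : ∀ x : L1, τ (algebraMap L1 Qb x) = algebraMap L1 Qb x := fun x =>
      hτ _ ⟨x, rfl⟩
    exact ssd_value_fixed P τ (hstab τ hτ') _ (ssd_smul_bcHom F₀ L1 τ hτ' a) c hcnon
  obtain ⟨c1, hc1⟩ := hcM
  have hc1' : algebraMap L1 Qb c1 = c := hc1
  refine ⟨c1, ?_⟩
  by_cases h0 : a - algebraMap L1 (laurentBaseChange L1 F₀) c1 = 0
  · rw [h0]
    simp
  · rw [ssd_mem_nonunits_iff v h0, ← hP, map_sub, dsc_bcHom_algebraMap, hc1']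
    have h0' : dsc_bcHom L1 Qb F₀ (a - algebraMap L1 (laurentBaseChange L1 F₀) c1) ≠ 0 := by
      rwa [Ne, map_eq_zero]
    rw [map_sub, dsc_bcHom_algebraMap, hc1'] at h0'
    exact (ssd_mem_nonunits_iff P h0').1 hcnon

end Galois

end Fermat.Agent.SS
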