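/-
Project SS (statement S34), cell [D] (helper20): THE DESCENT STEP over one subfield `L1 ⊆ Q̄`.

`FN = modularFunctionFieldFull N` (the level field over `ℚ`), `E₀` a cover field over `ℚ`,
`φ = (q ↦ q^k)` mapping `F_{L} = laurentBaseChange L FN` into `E_{L} = laurentBaseChange L E₀`.
For an abstract subfield `L1 → Q̄` with an automorphism `σ1` compatible with `σ ∈ G_ℚ`:

  core over `(L1, σ1)` in `E_{L1}`  +  root descent `E_{L1} → F_{L1}`  +  rationality of the zeros
  and poles of `φ(f1)`   ⟹   `σ²f · f = c · r^m · (σ f)²` in `F_Q̄` for `f = f1 ⊗ Q̄`.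
Prefix `ssd_`.
-/
import Mathlib
import Fermat.Agent.SS.Seams
import Fermat.Agent.SS.CoreSeam
import Fermat.Agent.JT3.Descent.FieldOfDef
import Fermat.Agent.JT3.Inst.H4

set_option autoImplicit false
set_option linter.unusedSectionVars false

noncomputable section

namespace Fermat.Agent.SS

open ModularCurve AlgebraicCurve Fermat.Agent.JT3 IntermediateField

local notation "Qb" => AlgebraicClosure ℚ

section Ord

variable {K F : Type*} [Field K] [Field F] [Algebra K F]

/-- `ord_w (g • f) = ord_{g⁻¹ • w} f`. -/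
theorem ssd_ord_smul (g : SemilinearAut K F) (w : Place K F) (f : F) :
    w.ord (g • f) = (g⁻¹ • w).ord f := by
  have h := SemilinearAut.ord_smul g (g⁻¹ • w) f
  rwa [smul_inv_smul] at h

/-- if all orders of `f` are divisible by `m`, so are all orders of
`g²f · f · (g f)⁻²`. -/
theorem ssd_dvd_ord_quot (g : SemilinearAut K F) (m : ℤ) {f : F} (hf : f ≠ 0)
    (h : ∀ v : Place K F, m ∣ v.ord f) (w : Place K F) :
    m ∣ w.ord (g • (g • f) * f * ((g • f)⁻¹) ^ 2) := by
  have hgf : g • f ≠ 0 := by rwa [Ne, smul_eq_zero_iff_eq]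
  have hggf : g • (g • f) ≠ 0 := by rwa [Ne, smul_eq_zero_iff_eq]
  have h2 : ((g • f)⁻¹) ^ 2 = (g • f)⁻¹ * (g • f)⁻¹ := sq _
  rw [h2, w.ord_mul (mul_ne_zero hggf hf) (mul_ne_zero (inv_ne_zero hgf) (inv_ne_zero hgf)),
    w.ord_mul hggf hf, w.ord_mul (inv_ne_zero hgf) (inv_ne_zero hgf), w.ord_inv,
    ssd_ord_smul, ssd_ord_smul, ssd_ord_smul]
  exact dvd_add (dvd_add (h _) (h _)) (dvd_add ((dvd_neg).2 (h _)) ((dvd_neg).2 (h _)))

end Ord

section Aux

variable {F1 Fb : Type*} [Field F1] [Field Fb]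

/-- a ring homomorphism intertwining two operators maps the quotient `s²f · f · (s f)⁻²` to the
same quotient. -/
theorem ssd_map_quot (bc : F1 →+* Fb) (s1 : F1 → F1) (sb : Fb → Fb)
    (h : ∀ x, bc (s1 x) = sb (bc x)) (f1 : F1) :
    bc (s1 (s1 f1) * f1 * ((s1 f1)⁻¹) ^ 2) =
      sb (sb (bc f1)) * bc f1 * ((sb (bc f1))⁻¹) ^ 2 := by
  simp only [map_mul, map_pow, map_inv₀, h]

theorem ssd_field_aux {A f B X : Fb} (hB : B ≠ 0) (h : A * f * (B⁻¹) ^ 2 = X) :
    (A * f) ^ 1 = X * B ^ (2 * 1) := by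
  rw [← h, pow_one, mul_one]
  field_simp

end Aux

section Step

variable (N : ℕ) [NeZero N] (E₀ : IntermediateField ℚ (LaurentSeries ℚ)) (k : ℕ) [NeZero k]

/-- `φ = (q ↦ q^k)` as an algebra homomorphism `F_L → E_L`. -/
def ssd_phiE (L1 : Type) [Field L1] [Algebra ℚ L1]
    (hφ : ∀ x ∈ laurentBaseChange L1 (modularFunctionFieldFull N),
      qExpand L1 k x ∈ laurentBaseChange L1 E₀) :
    laurentBaseChange L1 (modularFunctionFieldFull N) →ₐ[L1] laurentBaseChange L1 E₀ :=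
  ((qExpandAlgHomC L1 k).comp
    (laurentBaseChange L1 (modularFunctionFieldFull N)).val).codRestrict
    (laurentBaseChange L1 E₀).toSubalgebra (fun x => hφ x x.2)

theorem ssd_phiE_coe (L1 : Type) [Field L1] [Algebra ℚ L1]
    (hφ : ∀ x ∈ laurentBaseChange L1 (modularFunctionFieldFull N),
      qExpand L1 k x ∈ laurentBaseChange L1 E₀)
    (x : laurentBaseChange L1 (modularFunctionFieldFull N)) :
    ((ssd_phiE N E₀ k L1 hφ x : laurentBaseChange L1 E₀) : LaurentSeries L1) =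
      qExpand L1 k (x : LaurentSeries L1) := rfl

/-- the root descent `E_{L1} → F_{L1}`: an `m`-th root of `φ(f)` in the cover descends to an
`m`-th root of `f` (up to a constant), for `f` with all orders divisible by `m`. -/
def ssd_RootDescent (L1 : Type) [Field L1] [Algebra ℚ L1] (m : ℕ) : Prop :=
  ∀ f : laurentBaseChange L1 (modularFunctionFieldFull N),
    (∀ P : Place L1 (laurentBaseChange L1 (modularFunctionFieldFull N)), (m : ℤ) ∣ P.ord f) →
    ∀ (c : L1) (g : LaurentSeries L1), g ∈ laurentBaseChange L1 E₀ →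
      qExpand L1 k (f : LaurentSeries L1) = algebraMap L1 (LaurentSeries L1) c * g ^ m →
      ∃ (c' : L1) (g' : laurentBaseChange L1 (modularFunctionFieldFull N)),
        f = algebraMap L1 (laurentBaseChange L1 (modularFunctionFieldFull N)) c' * g' ^ m

/-- **THE DESCENT STEP.** -/
theorem ssd_step (L1 : Type) [Field L1] [Algebra ℚ L1] [Algebra L1 Qb] [IsScalarTower ℚ L1 Qb]
    (σ : Qb ≃ₐ[ℚ] Qb) (σ1 : L1 ≃ₐ[ℚ] L1)
    (hσ : ∀ x : L1, algebraMap L1 Qb (σ1 x) = σ (algebraMap L1 Qb x))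
    (hφ : ∀ x ∈ laurentBaseChange L1 (modularFunctionFieldFull N),
      qExpand L1 k x ∈ laurentBaseChange L1 E₀)
    {m : ℕ} (hm : m ≠ 0)
    (hroot : ssd_RootDescent N E₀ k L1 m)
    (hcore : ss_CoreAt σ1.toRingEquiv (laurentBaseChange L1 E₀) m)
    (f1 : laurentBaseChange L1 (modularFunctionFieldFull N))
    (fb : modularFunctionFieldBar N) (hfb : fb ≠ 0)
    (hf1 : dsc_bcHom L1 Qb (modularFunctionFieldFull N) f1 = fb)
    (hord : ∀ v : Place Qb (modularFunctionFieldBar N), (m : ℤ) ∣ v.ord fb)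
    (hrat : ∀ v : Place L1 (laurentBaseChange L1 E₀),
      v.ord (ssd_phiE N E₀ k L1 hφ f1) ≠ 0 → ss_RatPlace v) :
    ∃ (c : Qb) (r : modularFunctionFieldBar N), r ≠ 0 ∧
      (ss_act N σ (ss_act N σ fb) * fb) ^ 1 =
        algebraMap Qb (modularFunctionFieldBar N) c * r ^ m * ss_act N σ fb ^ (2 * 1) := by
  have _ : Algebra.IsAlgebraic ℚ Qb := AlgebraicClosure.isAlgebraic ℚ
  have _ : Algebra.IsAlgebraic L1 Qb := Algebra.IsAlgebraic.tower_top (K := ℚ) L1
  have hf10 : f1 ≠ 0 := by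
    rintro rfl
    rw [map_zero] at hf1
    exact hfb hf1.symm
  -- divisibility over `L1`
  have hord1 : ∀ Q : Place L1 (laurentBaseChange L1 (modularFunctionFieldFull N)),
      (m : ℤ) ∣ Q.ord f1 := fun Q =>
    dsc_bc_dvd_ord L1 Qb (modularFunctionFieldFull N) (m : ℤ) f1
      (fun P => by rw [hf1]; exact hord P) Q
  set g := arithmeticGalois (modularFunctionFieldFull N) σ1 with hg
  set gq := arithmeticGalois (modularFunctionFieldFull N) σ with hgq
  -- the quotient over `L1`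
  obtain ⟨h1, hh1⟩ : ∃ h1 : laurentBaseChange L1 (modularFunctionFieldFull N),
      h1 = g • (g • f1) * f1 * ((g • f1)⁻¹) ^ 2 := ⟨_, rfl⟩
  have hgf : g • f1 ≠ 0 := by rwa [Ne, smul_eq_zero_iff_eq]
  have hggf : g • (g • f1) ≠ 0 := by rwa [Ne, smul_eq_zero_iff_eq]
  have hh10 : h1 ≠ 0 := by
    rw [hh1]
    exact mul_ne_zero (mul_ne_zero hggf hf10) (pow_ne_zero _ (inv_ne_zero hgf))
  have hordh : ∀ Q : Place L1 (laurentBaseChange L1 (modularFunctionFieldFull N)),
      (m : ℤ) ∣ Q.ord h1 := fun Q => by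
    rw [hh1]
    exact ssd_dvd_ord_quot g (m : ℤ) hf10 hord1 Q
  -- the core
  have hg10 : ssd_phiE N E₀ k L1 hφ f1 ≠ 0 := by
    rwa [Ne, map_eq_zero]
  obtain ⟨c, r, hrE, hr0, hcr⟩ := hcore (ssd_phiE N E₀ k L1 hφ f1) hg10
    (fun v => lg_dvd_ord_of_embedding (ssd_phiE N E₀ k L1 hφ) (m : ℤ) f1 hord1 v) hrat
  -- the image of `h1` under `φ`
  have hcm : ∀ x : LaurentSeries L1,
      qExpand L1 k (coeffMap (σ1 : L1 →+* L1) x) = coeffMap (σ1 : L1 →+* L1) (qExpand L1 k x) :=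
    fun x => (coeffMap_qExpand _ k x).symm
  have hs0 : coeffMap (σ1 : L1 →+* L1) (qExpand L1 k (f1 : LaurentSeries L1)) ≠ 0 := by
    rw [← hcm]
    have h0 : ((g • f1 : laurentBaseChange L1 (modularFunctionFieldFull N)) :
        LaurentSeries L1) ≠ 0 := fun h => hgf (Subtype.ext h)
    rw [coe_arithmeticGalois_smul] at h0
    intro h
    exact h0 ((map_eq_zero_iff _ (qExpand L1 k).injective).1 h)
  have hφh1 : qExpand L1 k (h1 : LaurentSeries L1) =
      algebraMap L1 (LaurentSeries L1) c * r ^ m := by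
    have e1 : (h1 : LaurentSeries L1) =
        coeffMap (σ1 : L1 →+* L1) (coeffMap (σ1 : L1 →+* L1) (f1 : LaurentSeries L1)) *
          (f1 : LaurentSeries L1) *
          ((coeffMap (σ1 : L1 →+* L1) (f1 : LaurentSeries L1))⁻¹) ^ 2 := by
      rw [hh1]
      rfl
    rw [e1, map_mul, map_mul, map_pow, map_inv₀]
    simp only [hcm]
    have hcr' : coeffMap (σ1 : L1 →+* L1)
        (coeffMap (σ1 : L1 →+* L1) (qExpand L1 k (f1 : LaurentSeries L1))) *
          qExpand L1 k (f1 : LaurentSeries L1) =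
        algebraMap L1 (LaurentSeries L1) c * r ^ m *
          coeffMap (σ1 : L1 →+* L1) (qExpand L1 k (f1 : LaurentSeries L1)) ^ 2 := hcr
    rw [hcr']
    field_simp
  obtain ⟨c', g', hcg⟩ := hroot h1 hordh c r hrE hφh1
  -- base change to `Q̄`
  have hbcσ : ∀ x : laurentBaseChange L1 (modularFunctionFieldFull N),
      dsc_bcHom L1 Qb (modularFunctionFieldFull N) (g • x) =
        gq • dsc_bcHom L1 Qb (modularFunctionFieldFull N) x := by
    intro x
    apply Subtype.ext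
    rw [coe_arithmeticGalois_smul, dsc_bcHom_coe, dsc_bcHom_coe, coe_arithmeticGalois_smul,
      dsc_cm, coeffMap_coeffMap, coeffMap_coeffMap]
    apply coeffMap_congr
    ext a
    exact hσ a
  have hbcg' : dsc_bcHom L1 Qb (modularFunctionFieldFull N) g' ≠ 0 := by
    rw [Ne, map_eq_zero]
    rintro rfl
    rw [zero_pow hm, mul_zero] at hcg
    exact hh10 hcg
  refine ⟨algebraMap L1 Qb c', dsc_bcHom L1 Qb (modularFunctionFieldFull N) g', hbcg', ?_⟩
  have e3 : dsc_bcHom L1 Qb (modularFunctionFieldFull N)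
        (g • (g • f1) * f1 * ((g • f1)⁻¹) ^ 2) =
      gq • (gq • dsc_bcHom L1 Qb (modularFunctionFieldFull N) f1) *
        dsc_bcHom L1 Qb (modularFunctionFieldFull N) f1 *
        ((gq • dsc_bcHom L1 Qb (modularFunctionFieldFull N) f1)⁻¹) ^ 2 :=
    ssd_map_quot (dsc_bcHom L1 Qb (modularFunctionFieldFull N)) (fun x => g • x)
      (fun x => gq • x) hbcσ f1
  have e2 : gq • (gq • fb) * fb * ((gq • fb)⁻¹) ^ 2 =
      algebraMap Qb (modularFunctionFieldBar N) (algebraMap L1 Qb c') *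
        dsc_bcHom L1 Qb (modularFunctionFieldFull N) g' ^ m := by
    rw [hf1] at e3
    rw [← e3, ← hh1, hcg, map_mul, map_pow, dsc_bcHom_algebraMap]
  have hgfb : gq • fb ≠ 0 := by rwa [Ne, smul_eq_zero_iff_eq]
  exact ssd_field_aux hgfb e2

end Step

end Fermat.Agent.SS
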