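/-
Project SS (statement S34), cell [D] (helper20): THE DESCENT, generic in the cover.

`FN = modularFunctionFieldFull N`, `E₀` a cover field over `ℚ` (a function field after base change
to `Q̄`), `φ = (q ↦ q^k) : F_L → E_L`.  From

* the core over all sufficiently large number fields `L1 ⊆ Q̄`, normal over `ℚ` (`hcore`),
* the root descent `E_{L1} → F_{L1}` over all `L1` containing a finite set `T0` (`hroot`),

the Kummer seam `ss_KeyBar N q` follows (with `d = 1`).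
Prefix `ssd_`.
-/
import Mathlib
import Fermat.Agent.SS.Descent.Step
import Fermat.Agent.SS.Descent.Rational
import Fermat.Agent.S55.LevelFields
import Fermat.Agent.JT3.Descent.ConstDVR

set_option autoImplicit false
set_option linter.unusedSectionVars false

noncomputable section

namespace Fermat.Agent.SS

open ModularCurve AlgebraicCurve Fermat.Agent.JT3 Fermat.Agent.S55 IntermediateField

local notation "Qb" => AlgebraicClosure ℚ

/-- the restriction of an element of the inertia group of `A` to a subfield `L1` is inert at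
`A ∩ L1`. -/
theorem ssd_inert (A : ValuationSubring Qb) (σ : Qb ≃ₐ[ℚ] Qb) (hσ : σ ∈ A.inertiaSubgroupIn ℚ)
    (L1 : Type) [Field L1] [Algebra ℚ L1] [Algebra L1 Qb] [IsScalarTower ℚ L1 Qb]
    (σ1 : L1 ≃ₐ[ℚ] L1) (h : ∀ x, algebraMap L1 Qb (σ1 x) = σ (algebraMap L1 Qb x)) :
    ss_Inert (A.comap (algebraMap L1 Qb)) σ1.toRingEquiv := by
  have h1 := ((tl_mem_inertiaSubgroupIn_iff A σ).1 hσ).2
  have h2 := ((tl_mem_inertiaSubgroupIn_iff A σ⁻¹).1 (inv_mem hσ)).2
  intro x hx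
  have hx' : algebraMap L1 Qb x ∈ A := hx
  refine ⟨?_, ?_⟩
  · rw [dsc_mem_comap_nonunits_iff, map_sub]
    show algebraMap L1 Qb (σ1 x) - _ ∈ _
    rw [h]
    exact h1 _ hx'
  · rw [dsc_mem_comap_nonunits_iff, map_sub]
    have e : algebraMap L1 Qb (σ1.toRingEquiv.symm x) = σ⁻¹ (algebraMap L1 Qb x) := by
      have h3 := h (σ1.symm x)
      rw [AlgEquiv.apply_symm_apply] at h3
      show algebraMap L1 Qb (σ1.symm x) = σ.symm (algebraMap L1 Qb x)
      rw [h3, AlgEquiv.symm_apply_apply]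
    rw [e]
    exact h2 _ hx'

section Generic

variable (N : ℕ) [NeZero N] (q : ℕ) (E₀ : IntermediateField ℚ (LaurentSeries ℚ))
  (k : ℕ) [NeZero k]

/-- **[D], generic cover.** -/
theorem ssd_keyBar_of_core
    (hφ : ∀ (L1 : Type) [Field L1] [Algebra ℚ L1],
      ∀ x ∈ laurentBaseChange L1 (modularFunctionFieldFull N),
        qExpand L1 k x ∈ laurentBaseChange L1 E₀)
    (hfin : ∃ x0 : laurentBaseChange Qb E₀,
      FiniteDimensional Qb⟮x0⟯ (laurentBaseChange Qb E₀))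
    (T0 : Finset Qb)
    (hroot : ∀ L1 : IntermediateField ℚ Qb, (↑T0 : Set Qb) ⊆ L1 → ∀ m : ℕ, m ≠ 0 →
      ssd_RootDescent N E₀ k L1 m)
    (hcore : ∀ A : ValuationSubring Qb, A.LiesOverPrime q → ∃ T : Finset Qb,
      ∀ L1 : IntermediateField ℚ Qb, FiniteDimensional ℚ L1 → Normal ℚ L1 →
        (↑T : Set Qb) ⊆ L1 →
        ∀ σ1 : L1 ≃ₐ[ℚ] L1, ss_Inert (A.comap (algebraMap L1 Qb)) σ1.toRingEquiv →
          ∀ m : ℕ, ¬ q ∣ m → ss_CoreAt σ1.toRingEquiv (laurentBaseChange L1 E₀) m) :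
    ss_KeyBar N q := by
  classical
  refine ⟨1, one_ne_zero, fun A hA σ hσ m hqm fb hfb hord => ?_⟩
  have hm : m ≠ 0 := by
    rintro rfl
    exact hqm (dvd_zero q)
  obtain ⟨T, hT⟩ := hcore A hA
  obtain ⟨x0, hx0⟩ := hfin
  -- the image of `fb` in the cover
  set gb : laurentBaseChange Qb E₀ := ⟨qExpand Qb k (fb : LaurentSeries Qb), hφ Qb _ fb.2⟩ with hgb
  obtain ⟨srat, hsrat⟩ := ssd_rational E₀ x0 gb
  obtain ⟨sf, hsf⟩ := dsc_bc_exists_fg Qb (modularFunctionFieldFull N) fb.2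
  -- the number field
  set K1 : IntermediateField ℚ Qb :=
    IntermediateField.adjoin ℚ (↑(T ∪ srat ∪ sf ∪ T0) : Set Qb) with hK1
  have _ : Algebra.IsAlgebraic ℚ Qb := AlgebraicClosure.isAlgebraic ℚ
  have _ : Algebra.IsIntegral ℚ Qb := Algebra.IsAlgebraic.isIntegral
  have hK1fd : FiniteDimensional ℚ K1 :=
    IntermediateField.finiteDimensional_adjoin (fun x _ => Algebra.IsIntegral.isIntegral x)
  have _ : IsAlgClosure ℚ Qb := ⟨inferInstance, AlgebraicClosure.isAlgebraic ℚ⟩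
  have _ : Normal ℚ Qb := inferInstance
  set L1 : IntermediateField ℚ Qb := IntermediateField.normalClosure ℚ K1 Qb with hL1
  have hL1fd : FiniteDimensional ℚ L1 := normalClosure.is_finiteDimensional ℚ K1 Qb
  have hL1n : Normal ℚ L1 := normalClosure.normal ℚ K1 Qb
  have hsub : (↑(T ∪ srat ∪ sf ∪ T0) : Set Qb) ⊆ L1 := fun x hx =>
    IntermediateField.le_normalClosure K1 (IntermediateField.subset_adjoin ℚ _ hx)
  have hTsub : (↑T : Set Qb) ⊆ L1 := fun x hx => hsub (by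
    rw [Finset.mem_coe] at hx ⊢; simp [hx])
  have hsratsub : (↑srat : Set Qb) ⊆ L1 := fun x hx => hsub (by
    rw [Finset.mem_coe] at hx ⊢; simp [hx])
  have hsfsub : (↑sf : Set Qb) ⊆ L1 := fun x hx => hsub (by
    rw [Finset.mem_coe] at hx ⊢; simp [hx])
  have hT0sub : (↑T0 : Set Qb) ⊆ L1 := fun x hx => hsub (by
    rw [Finset.mem_coe] at hx ⊢; simp [hx])
  -- the restriction of `σ`
  set σ1 : L1 ≃ₐ[ℚ] L1 := σ.restrictNormal L1 with hσ1
  have hσ1c : ∀ x : L1, algebraMap L1 Qb (σ1 x) = σ (algebraMap L1 Qb x) := fun x =>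
    AlgEquiv.restrictNormal_commutes σ L1 x
  have hinert := ssd_inert A σ hσ L1 σ1 hσ1c
  have hcoreL := hT L1 hL1fd hL1n hTsub σ1 hinert m hqm
  -- the model of `fb` over `L1`
  obtain ⟨y1, hy1, hy⟩ := hsf L1 hsfsub
  have hf1 : dsc_bcHom L1 Qb (modularFunctionFieldFull N) ⟨y1, hy1⟩ = fb := Subtype.ext hy
  refine ssd_step N E₀ k L1 σ σ1 hσ1c (hφ L1) hm (hroot L1 hT0sub m hm) hcoreL ⟨y1, hy1⟩ fb hfb
    hf1 hord ?_
  -- rationality
  refine hsrat L1 ?_ _ ?_
  · intro x hx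
    exact ⟨⟨x, hsratsub hx⟩, rfl⟩
  · apply Subtype.ext
    rw [dsc_bcHom_coe, ssd_phiE_coe, hgb]
    show dsc_cm L1 Qb (qExpand L1 k y1) = qExpand Qb k (fb : LaurentSeries Qb)
    rw [dsc_cm, coeffMap_qExpand, ← hy]
    rfl

end Generic

end Fermat.Agent.SS
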