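/-
Project SS (statement S34), cell [D] (helper20): THE COVER FIELDS ARE BASE CHANGES.

For a field `L ⊇ ℚ` the rigidified fields `lg_E L N = φ(F_N)(λ)` (Legendre) and
`hs_E L h3 N = φ(F_N)(μ)` (Hesse) are the base changes `laurentBaseChange L E₀` of the fields
`E₀` over `ℚ`; so the semilinear Galois action `arithmeticGalois E₀` and the descent library
`JT3/Descent/FieldOfDef.lean` apply to them.

* `ssd_cover_eq`   : generic form (`φ = q ↦ q^k`, one extra generator `x`);
* `ssd_lg_E_eq`    : `lg_E L N = laurentBaseChange L (lg_E ℚ N)`;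
* `ssd_hs_E_eq`    : `hs_E L h3 N = laurentBaseChange L (hs_E ℚ _ N)`.
Prefix `ssd_`.
-/
import Mathlib
import Fermat.Agent.JT3.Inst.Defs
import Fermat.Agent.JT3.Inst.HesseDefs

set_option autoImplicit false
set_option linter.unusedSectionVars false

noncomputable section

namespace Fermat.Agent.SS

open ModularCurve Fermat.Agent.JT3 IntermediateField

section Cover

variable (L : Type*) [Field L] [Algebra ℚ L] (N : ℕ) [NeZero N]

/-- the coefficient embedding maps `F_N` over `ℚ` into `F_N` over `L`. -/
theorem ssd_coeffEmb_mem_lg_F {x : LaurentSeries ℚ} (hx : x ∈ lg_F ℚ N) :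
    coeffEmb L x ∈ lg_F L N := by
  rw [lg_F_eq_laurentBaseChange L N]
  exact coeffEmb_mem_laurentBaseChange L hx

/-- **generic form**: a field `φ(F_N)(x)`, `φ = (q ↦ q^k)`, over `L` is the base change of the
same field over `ℚ`. -/
theorem ssd_cover_eq (k : ℕ) [NeZero k] (xq : LaurentSeries ℚ) (xL : LaurentSeries L)
    (hx : coeffEmb L xq = xL) :
    (lg_F L N).map (qExpandAlgHomC L k) ⊔ IntermediateField.adjoin L {xL} =
      laurentBaseChange L
        ((lg_F ℚ N).map (qExpandAlgHomC ℚ k) ⊔ IntermediateField.adjoin ℚ {xq}) := by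
  set E₀ : IntermediateField ℚ (LaurentSeries ℚ) :=
    (lg_F ℚ N).map (qExpandAlgHomC ℚ k) ⊔ IntermediateField.adjoin ℚ {xq} with hE₀
  apply le_antisymm
  · refine sup_le ?_ ?_
    · rintro _ ⟨x, hx', rfl⟩
      have hx'' : x ∈ laurentBaseChange L (modularFunctionFieldFull N) := by
        rw [← lg_F_eq_laurentBaseChange L N]; exact hx'
      rw [mem_laurentBaseChange_iff] at hx''
      show qExpandAlgHomC L k x ∈ laurentBaseChange L E₀
      clear hx'
      induction hx'' using Subfield.closure_induction with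
      | mem y hy =>
          rcases hy with ⟨a, rfl⟩ | ⟨w, hw, rfl⟩
          · rw [AlgHom.commutes]
            exact (laurentBaseChange L E₀).algebraMap_mem _
          · have h1 : qExpandAlgHomC L k (coeffEmb L w) = coeffEmb L (qExpandAlgHomC ℚ k w) := by
              rw [qExpandAlgHomC_apply, qExpandAlgHomC_apply, coeffEmb, coeffMap_qExpand]
            rw [h1]
            apply coeffEmb_mem_laurentBaseChange
            exact (le_sup_left : (lg_F ℚ N).map (qExpandAlgHomC ℚ k) ≤ E₀) ⟨w, hw, rfl⟩
      | one => rw [map_one]; exact one_mem _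
      | add x y _ _ hx hy => rw [map_add]; exact add_mem hx hy
      | neg x _ hx => rw [map_neg]; exact neg_mem hx
      | inv x _ hx => rw [map_inv₀]; exact inv_mem hx
      | mul x y _ _ hx hy => rw [map_mul]; exact mul_mem hx hy
    · rw [IntermediateField.adjoin_le_iff]
      intro y hy
      rw [Set.mem_singleton_iff.1 hy, ← hx]
      apply coeffEmb_mem_laurentBaseChange
      exact (le_sup_right : IntermediateField.adjoin ℚ {xq} ≤ E₀)
        (IntermediateField.mem_adjoin_simple_self ℚ xq)
  · rw [laurentBaseChange, IntermediateField.adjoin_le_iff]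
    rintro _ ⟨w, hw, rfl⟩
    set EL : IntermediateField L (LaurentSeries L) :=
      (lg_F L N).map (qExpandAlgHomC L k) ⊔ IntermediateField.adjoin L {xL} with hEL
    show coeffEmb L w ∈ EL
    have hE₀' : E₀ = IntermediateField.adjoin ℚ
        (((lg_F ℚ N).map (qExpandAlgHomC ℚ k) : Set (LaurentSeries ℚ)) ∪ {xq}) := by
      rw [IntermediateField.adjoin_union, IntermediateField.adjoin_self]
    have hw' : w ∈ IntermediateField.adjoin ℚ
        (((lg_F ℚ N).map (qExpandAlgHomC ℚ k) : Set (LaurentSeries ℚ)) ∪ {xq}) := by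
      rw [← hE₀']; exact hw
    clear hw
    induction hw' using IntermediateField.adjoin_induction with
    | mem y hy =>
        rcases hy with ⟨y0, hy0, rfl⟩ | hy
        · have h1 : coeffEmb L (qExpandAlgHomC ℚ k y0) = qExpandAlgHomC L k (coeffEmb L y0) := by
            rw [qExpandAlgHomC_apply, qExpandAlgHomC_apply, coeffEmb, coeffMap_qExpand]
          show coeffEmb L (qExpandAlgHomC ℚ k y0) ∈ EL
          rw [h1]
          exact (le_sup_left : (lg_F L N).map (qExpandAlgHomC L k) ≤ EL)
            ⟨coeffEmb L y0, ssd_coeffEmb_mem_lg_F L N hy0, rfl⟩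
        · rw [Set.mem_singleton_iff.1 hy, hx]
          exact (le_sup_right : IntermediateField.adjoin L {xL} ≤ EL)
            (IntermediateField.mem_adjoin_simple_self L xL)
    | algebraMap r =>
        have : coeffEmb L (algebraMap ℚ (LaurentSeries ℚ) r)
            = algebraMap L (LaurentSeries L) (algebraMap ℚ L r) := by
          rw [coeffEmb, algebraMap_laurentSeries_eq_single, coeffMap_single,
            algebraMap_laurentSeries_eq_single]
        rw [this]
        exact EL.algebraMap_mem _
    | add x y _ _ hx hy => rw [map_add]; exact add_mem hx hy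
    | inv x _ hx => rw [map_inv₀]; exact inv_mem hx
    | mul x y _ _ hx hy => rw [map_mul]; exact mul_mem hx hy

/-- **the Legendre cover field is a base change.** -/
theorem ssd_lg_E_eq : lg_E L N = laurentBaseChange L (lg_E ℚ N) :=
  ssd_cover_eq L N 2 (lg_lam ℚ) (lg_lam L) (lg_coeffMap_lam (L := ℚ) (algebraMap ℚ L))

/-- **the Hesse cover field is a base change.** -/
theorem ssd_hs_E_eq (h3 : (3 : L) ≠ 0) (h3q : (3 : ℚ) ≠ 0) :
    hs_E L h3 N = laurentBaseChange L (hs_E ℚ h3q N) :=
  ssd_cover_eq L N 3 (hs_mu ℚ h3q) (hs_mu L h3) (hs_coeffMap_mu ℚ h3q (algebraMap ℚ L) h3)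

end Cover

end Fermat.Agent.SS
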